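import Fermat.Statements.S05
import Fermat.Agent.S05.FreyFix

set_option autoImplicit false
open WeierstrassCurve WeierstrassCurve.Affine WeierstrassCurve.Affine.Point
open CuspForm ModularFormClass UpperHalfPlane
open FreyPackage

namespace Fermat.Agent.S05

theorem not_dvd_of_gcd_eq_one {q : ℕ} (hq : q.Prime) {a b : ℤ} (h : gcd a b = 1)
    (ha : (q : ℤ) ∣ a) : ¬ (q : ℤ) ∣ b := by
  intro hb
  have h1 : (q : ℤ) ∣ gcd a b := dvd_gcd ha hb
  rw [h] at h1
  have h2 : q ∣ 1 := by exact_mod_cast h1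
  exact hq.one_lt.ne' (Nat.dvd_one.mp h2)

theorem result (P : FreyPackage) {q : ℕ} (hq : q.Prime) (hq2 : q ≠ 2) (hqp : q ≠ P.p) : P.GaloisRepUnramifiedAt q := by
  intro A hA σ hσ x
  have hvq : A.valuation ((q : ℕ) : AlgebraicClosure ℚ) < 1 := A.mem_nonunits_iff.mp hA
  have h2 : A.valuation (2 : AlgebraicClosure ℚ) = 1 := by
    have := u_natCast_of_not_dvd (v := A.valuation) hq hvq (n := 2)
      (fun h => hq2 ((Nat.prime_dvd_prime_iff_eq hq Nat.prime_two).mp h))
    simpa using this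
  have hvp : A.valuation ((P.p : ℕ) : AlgebraicClosure ℚ) = 1 :=
    u_natCast_of_not_dvd hq hvq (fun h => hqp ((Nat.prime_dvd_prime_iff_eq hq P.pp).mp h))
  have hIn := inertial_of_mem P.freyCurve A hσ
  have hpx : P.p • x.1 = 0 := by
    have := x.2
    rw [Submodule.mem_torsionBy_iff] at this
    exact_mod_cast this
  apply Subtype.ext
  change Point.map σ.toAlgHom x.1 = x.1
  generalize x.1 = X at hpx
  by_cases ha : (q : ℤ) ∣ P.a
  · have hb : ¬ (q : ℤ) ∣ P.b := not_dvd_of_gcd_eq_one hq P.hgcdab ha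
    have hva := s_intCast_of_dvd (v := A.valuation) hvq ha
    have hvb := u_intCast_of_not_dvd (v := A.valuation) hq hvq hb
    exact frey_fixed_ab P h2 hvp (s_mul_i hva hvb.le)
      (u_sub_s (u_pow hvb _) (s_pow hva P.hp0)) hIn hpx
  by_cases hb : (q : ℤ) ∣ P.b
  · have hva := u_intCast_of_not_dvd (v := A.valuation) hq hvq ha
    have hvb := s_intCast_of_dvd (v := A.valuation) hvq hb
    exact frey_fixed_ab P h2 hvp (i_mul_s hva.le hvb)
      (s_sub_u (s_pow hvb P.hp0) (u_pow hva _)) hIn hpx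
  have hva := u_intCast_of_not_dvd (v := A.valuation) hq hvq ha
  have hvb := u_intCast_of_not_dvd (v := A.valuation) hq hvq hb
  by_cases hc : (q : ℤ) ∣ P.c
  · have hvc := s_intCast_of_dvd (v := A.valuation) hvq hc
    exact frey_fixed_c P h2 hvp hva hvc hIn hpx
  · have hvc := u_intCast_of_not_dvd (v := A.valuation) hq hvq hc
    exact frey_fixed_good P h2 hvp hva hvb hvc hIn hpx

end Fermat.Agent.S05
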