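import Fermat.Statements.S07
import Fermat.Prelude.Thm_ModularForm_sturm_bound_Gamma0

set_option autoImplicit false
open WeierstrassCurve WeierstrassCurve.Affine WeierstrassCurve.Affine.Point
open CuspForm ModularFormClass UpperHalfPlane
open ModularForm

namespace Fermat.Agent.S07

open scoped MatrixGroups

theorem index_Gamma0_two_le : (CongruenceSubgroup.Gamma0 2).index ≤ 4 := by
  classical
  let φ : SL(2, ℤ) → ZMod 2 × ZMod 2 := fun g => ((g 0 0 : ℤ), (g 1 0 : ℤ))
  have hφ : ∀ g h : SL(2, ℤ), φ g = φ h → g⁻¹ * h ∈ CongruenceSubgroup.Gamma0 2 := by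
    intro g h hgh
    rw [CongruenceSubgroup.Gamma0_mem]
    have h0 : ((g 0 0 : ℤ) : ZMod 2) = ((h 0 0 : ℤ) : ZMod 2) := congrArg Prod.fst hgh
    have h1 : ((g 1 0 : ℤ) : ZMod 2) = ((h 1 0 : ℤ) : ZMod 2) := congrArg Prod.snd hgh
    rw [Matrix.SpecialLinearGroup.coe_mul, Matrix.SpecialLinearGroup.SL2_inv_expl,
      Matrix.mul_apply, Fin.sum_univ_two]
    simp only [Matrix.cons_val_zero, Matrix.cons_val_one, Matrix.cons_val',
      Matrix.cons_val_fin_one]
    push_cast
    rw [h0, h1]
    ring
  let ψ : (SL(2, ℤ) ⧸ CongruenceSubgroup.Gamma0 2) → ZMod 2 × ZMod 2 := fun q => φ q.out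
  have hψ : Function.Injective ψ := by
    intro a b hab
    have := hφ _ _ hab
    rw [← QuotientGroup.eq] at this
    simpa using this
  have := Nat.card_le_card_of_injective ψ hψ
  simpa [Subgroup.index, Nat.card_prod] using this

theorem result (f : CuspForm (CongruenceSubgroup.Gamma0 2) 2) : f = 0 := by
  have h1 : (1 : ℝ) ∈ (CongruenceSubgroup.Gamma0 2 : Subgroup (GL (Fin 2) ℝ)).strictPeriods := by
    simp [CongruenceSubgroup.strictPeriods_Gamma0]
  have key : CuspForm.toModularFormₗ f = 0 := by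
    refine ModularForm.sturm_bound_Gamma0 2 _ ?_
    intro n hn
    have hidx := index_Gamma0_two_le
    have hn0 : n = 0 := by
      have h2 : ((2 : ℤ) * (((CongruenceSubgroup.Gamma0 2).index : ℕ) : ℤ)).toNat
          = 2 * (CongruenceSubgroup.Gamma0 2).index := by
        omega
      rw [h2] at hn
      omega
    subst hn0
    exact CuspFormClass.qExpansion_coeff_zero f one_pos h1
  exact CuspForm.toModularFormₗ_injective (by rw [key, _root_.map_zero])

end Fermat.Agent.S07
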