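import Fermat.Statements.S10
import Fermat.Agent.Lib.Kummer.Small

set_option autoImplicit false
open WeierstrassCurve WeierstrassCurve.Affine WeierstrassCurve.Affine.Point
open CuspForm ModularFormClass UpperHalfPlane
open FreyPackage

namespace Fermat.Agent.S10

theorem result (P : FreyPackage) (hp : P.p = 5 ∨ P.p = 7 ∨ P.p = 13) : ¬ HasGaloisStableCofixedLine (K := AlgebraicClosure ℚ) ℚ P.freyCurve P.p := by
  exfalso
  have hprod : P.a * P.b * P.c ≠ 0 := mul_ne_zero (mul_ne_zero P.ha0 P.hb0) P.hc0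
  have hgcd : IsCoprime P.a P.b := Int.isCoprime_iff_gcd_eq_one.mpr (by
    have := P.hgcdab
    rw [← Int.coe_gcd] at this
    exact_mod_cast this)
  have hF := P.hFLT
  rcases hp with h | h | h
  · rw [h] at hF; exact Fermat.Agent.Lib.Kummer.flt_five hprod hgcd hF
  · rw [h] at hF; exact Fermat.Agent.Lib.Kummer.flt_seven hprod hgcd hF
  · rw [h] at hF; exact Fermat.Agent.Lib.Kummer.flt_thirteen hprod hgcd hF

end Fermat.Agent.S10
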