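import Fermat.Statements.S13
import Fermat.Agent.S05
import Fermat.Agent.S13.Glob
import Fermat.Agent.S13.FreyInt
import Fermat.Agent.S13.Tor
import Fermat.Agent.S13.LocP
import Fermat.Agent.S13.Loc2Final

set_option autoImplicit false
open WeierstrassCurve WeierstrassCurve.Affine WeierstrassCurve.Affine.Point
open CuspForm ModularFormClass UpperHalfPlane
open FreyPackage

namespace Fermat.Agent.S13

theorem result (P : FreyPackage) (hred : ¬ GaloisRepIsIrreducible (K := AlgebraicClosure ℚ) ℚ P.freyCurve P.p) : HasGaloisStableCofixedLine (K := AlgebraicClosure ℚ) ℚ P.freyCurve P.p := by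
  exact glob P
    (exists_torsion P.freyCurve (frey_Δ_ne_zero P) P.hp_odd (by have := P.hp5; omega))
    (tor_finite P.freyCurve P.hp_odd)
    (fun A hA _ h0 hp0 hst => exists_integral_torsion P.freyCurve (frey_Δ_ne_zero P) P.pp P.hp5 A hA
      (frey_b_mem P A) h0 hp0 hst)
    (fun A hA => loc2 P A hA)
    (fun _ hX hpX hfix => no_rational_torsion P hX hpX hfix)
    (fun A hA hE => locp P A hA hE)
    (fun _ hq h2 hp => Fermat.Agent.S05.result P hq h2 hp)
    hred

end Fermat.Agent.S13
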