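import Fermat.Statements.S14
import Fermat.Agent.S14.Final
import Fermat.Agent.S14.Thaine
import Fermat.Agent.S14.ThaineC

set_option autoImplicit false
open ExtCitation

namespace Fermat.Agent.S14

theorem result {p : ℕ} [Fact p.Prime] (h3 : 3 ≤ p) :
    ExtCitation.ExtVanishingCts p := by
  refine extVanishingCts_of_thaine h3 ?_
  intro hp5 K _ _ _ ζ hζ f hf v hv hvp
  obtain ⟨κ, s, hκ, h3', h4'⟩ := thaine_exists hζ v hv hvp
  exact thaine_C hp5 hζ f hf v hv hvp κ hκ s h3' h4'

end Fermat.Agent.S14
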