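import Fermat.Statements.S20
import Fermat.Agent.S20.Final
import Fermat.Agent.S20.Gen
import Fermat.Agent.S20.Nonvanishing
import Fermat.Agent.S20.Cusp
import Fermat.Agent.S20.Duality
import Fermat.Agent.S20.WtZero
import Fermat.Agent.S20.CardQuo
import Fermat.Agent.S20.Fixed
import Fermat.Agent.S20.Cusps

set_option autoImplicit false
open CuspForm

namespace Fermat.Agent.S20

theorem result (N : ℕ) [NeZero N] :
    (Module.finrank ℂ (CuspForm (CongruenceSubgroup.Gamma0 N) 2) : ℚ) = ModularCurve.genusFormula N := by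
  obtain ⟨D⟩ := exists_genData N
  have hT : D.TendstoHyp := fun l q => D.tendsto_discriminant_mul_inv l q
  rw [D.finrank_cuspForm_two_of hT,
    D.final (D.det_F_ne_zero _) (D.det_F_ne_zero _) D.wt_nonneg D.wt_even (D.wt_le_of hT)
      D.card_wt_zero D.sum_wt, card_quo, card_fixed_S, card_fixed_ST, card_orbits_T]
  rfl

end Fermat.Agent.S20
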