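import Fermat.Statements.S16
import Fermat.Agent.S16.Bounds
import Fermat.Agent.S16.SturmNorm
import Fermat.Agent.S16.Upper

set_option autoImplicit false
open ModularCurve CuspForm
open ModularCurve

namespace Fermat.Agent.S16

/-- the toolkit at prime level `p` -/
noncomputable def toolkitFinal (p : ℕ) [Fact p.Prime] : Toolkit p where
  M := MK p
  mul_mem := MK_mul_mem
  swap_mem := MK_swap_mem
  lvl1_mem := MK_lvl1_mem
  trace := MK_trace
  sturm := fun ℓ hℓ _ _ _ _ h hA hB n₁ n₂ h1 h2 hn => MK_sturm ℓ hℓ h hA hB n₁ n₂ h1 h2 hn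

theorem result
    (p : ℕ) [Fact p.Prime] :
    Nat.card (↥(heckeLatticeAlgebra p ∅) ⧸
        Ideal.map ((latticeRestrictHom p ∅).toRingHom.comp (heckeEvalForms p 2))
          (eisensteinIdeal p)) =
      eisensteinNumerator p :=
  card_of_bounds p (eisensteinNumerator p) (eisensteinNumerator_pos p) (lower_bound p)
    (upper_bound_of p (fun h7 M _ _ hAB h0 hj =>
      upper_bound (toolkitFinal p) Fact.out h7 M hAB h0 hj))

end Fermat.Agent.S16
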