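import Fermat.Statements.S18
import Fermat.Agent.S18.Asm4
import Fermat.Agent.S18.Asm5
import Fermat.Agent.S18.AsmB
import Fermat.Agent.S18.Glue5
import Fermat.Agent.S18.Glue23
import Fermat.Agent.S18.Mo3aThreeFinal

set_option autoImplicit false
open ModularCurve

namespace Fermat.Agent.S18

theorem result (N : ℕ) [NeZero N] {ℓ : ℕ}
    [Fact ℓ.Prime] (hℓN : ¬ ℓ ∣ N) (A : ValuationSubring (AlgebraicClosure ℚ)) (hA : A.LiesOverPrime ℓ)
    (h : ModularCurve.ReductionInputsModL A N) (m : ℕ) (hm : ¬ ℓ ∣ m) (z : ModularCurve.JZero N)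
    (hmz : m • z = 0) (hz : ModularCurve.reductionModL A N z = 0) :
    z = 0 := by
  have hℓ : ℓ.Prime := Fact.out
  obtain ⟨M, hM0, hNM, hℓM, hcase, e, he⟩ := Asm.exists_level ℓ N (NeZero.ne N) hℓ hℓN
  have : NeZero M := ⟨hM0⟩
  have := Asm.isAlgClosed_residueField A
  have hm0 : 0 < m := Nat.pos_of_ne_zero (by rintro rfl; exact hm (dvd_zero _))
  have hπ : Function.Surjective (IsLocalRing.residue A) := IsLocalRing.residue_surjective
  have hcore : Asm.CoreStmt A (IsLocalRing.residue A) M := by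
    rcases hcase with h5 | ⟨h3, h2⟩ | ⟨h2, h3⟩
    · exact Asm.coreStmt_five hℓ A hA M hℓM _ hπ h5
    · exact Asm.coreStmt_three hℓ A hA M hℓM _ hπ h3 h2
    · obtain ⟨I, -, -, -, -, H⟩ := Mo3a.exists_haupt_three ℓ (by rw [h2]; decide)
      exact Asm.coreStmt_of_haupt hℓ A hA M hℓM _ hπ 3 (Or.inr rfl) h3 I H
  exact Asm.main_along hNM (Asm.barHyp hℓ A hA N hℓN _ hπ) hcore h m hm0
    (Asm.natCast_map_ne_zero A hℓ hA (IsLocalRing.residue A) m hm)
    (by rw [he]; exact Nat.Coprime.pow_left _ ((Nat.Prime.coprime_iff_not_dvd hℓ).2 hm)) z hmz hz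

end Fermat.Agent.S18
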