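import Fermat.Statements.S21
import Fermat.Agent.S21.PeriodMap
import Fermat.Agent.S21.Parabolic
import Fermat.Agent.S21.Dim
import Fermat.Agent.S21.Injective
import Fermat.Agent.S20
import Fermat.Agent.S23.Descent

set_option autoImplicit false
open ModularCurve

namespace Fermat.Agent.S21

open UpperHalfPlane CongruenceSubgroup ModularCurve ModularCurve.Period

theorem result (N : ℕ) [NeZero N] :
    Function.Injective (ModularCurve.periodHomPair N)
      ∧ LinearMap.range (ModularCurve.periodHomPair N)
          = ModularCurve.Period.parabolicHoms ℂ (CongruenceSubgroup.Gamma0 N) ℂ := by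
  obtain ⟨pml, hpml, hdef⟩ := periodHomPair_def N (existsPeriodMapLinear N)
  have hinj : Function.Injective (ModularCurve.periodHomPair N) := by
    rw [injective_iff_map_eq_zero]
    rintro ⟨f, g⟩ hfg
    rw [hdef] at hfg
    have h1 : periodMap N (f + g) + charInvolution N ℂ ℂ (periodMap N (f - g)) = 0 := by
      rw [← hpml, ← hpml, map_add, map_sub, map_sub, ← hfg]
      simp only [LinearMap.coprod_apply, LinearMap.comp_apply, LinearMap.add_apply,
        LinearMap.sub_apply, LinearMap.id_apply]
      abel
    obtain ⟨h2, h3⟩ := eq_zero_of_periodMap_add_charInvolution N _ _ h1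
    have hf : f = 0 := by
      have : (2 : ℂ) • f = 0 := by
        rw [two_smul]
        calc f + f = (f + g) + (f - g) := by abel
          _ = 0 := by rw [h2, h3, add_zero]
      exact (smul_eq_zero.mp this).resolve_left two_ne_zero
    have hg : g = 0 := by rw [hf, zero_add] at h2; exact h2
    rw [hf, hg]
    rfl
  refine ⟨hinj, ?_⟩
  obtain ⟨hfin, hle⟩ := finrank_parabolicHoms_le N
  have := hfin
  have : Module.Finite ℂ (CuspForm (CongruenceSubgroup.Gamma0 N) 2) :=
    Fermat.Agent.S23.finiteDimensional_cuspForm N 2
  have hrange : LinearMap.range (ModularCurve.periodHomPair N) ≤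
      parabolicHoms ℂ (Gamma0 N) ℂ := by
    rintro _ ⟨⟨f, g⟩, rfl⟩
    rw [hdef]
    simp only [LinearMap.coprod_apply, LinearMap.comp_apply, LinearMap.add_apply,
        LinearMap.sub_apply, LinearMap.id_apply, hpml]
    have hf := periodMap_mem_parabolicHoms N f
    have hg := periodMap_mem_parabolicHoms N g
    exact Submodule.add_mem _ (Submodule.add_mem _ hf (charInvolution_mem_parabolicHoms N ℂ ℂ hf))
      (Submodule.sub_mem _ hg (charInvolution_mem_parabolicHoms N ℂ ℂ hg))
  apply Submodule.eq_of_le_of_finrank_le hrange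
  rw [LinearMap.finrank_range_of_inj hinj, Module.finrank_prod]
  have h20 := Fermat.Agent.S20.result N
  have : (Module.finrank ℂ (parabolicHoms ℂ (Gamma0 N) ℂ) : ℚ) ≤
      ((Module.finrank ℂ (CuspForm (Gamma0 N) 2) + Module.finrank ℂ (CuspForm (Gamma0 N) 2) : ℕ) :
        ℚ) := by
    push_cast
    rw [h20]
    linarith
  exact_mod_cast this

end Fermat.Agent.S21
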