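-- Statement S22: the Hecke algebra is a finite `ℤ`-module.
import Fermat.Statements.S22
import Fermat.Agent.S22.Algebra
import Fermat.Agent.S22.Assembly

set_option autoImplicit false
open CuspForm

namespace Fermat.Agent.S22

theorem result (N : ℕ) [NeZero N] (k : ℤ) (S : Set ℕ) :
    Module.Finite ℤ (CuspForm.heckeAlgebra N k S) := by
  rcases le_or_gt k 0 with hk | hk
  · exact moduleFinite_of_nonpos hk S
  · obtain ⟨𝒮, hfin, hint, hspan⟩ := span_data N k
    have : Fintype ↥𝒮 := hfin.fintype
    refine moduleFinite_of_span (by omega) S (ι := ↥𝒮) (fun i => (i : ℕ → ℂ))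
      (Subalgebra.toSubmodule (cycRing N)) (cycRing_fg N (NeZero.ne N))
      (fun i n => hint i i.2 n) ?_
    intro f
    have h := hspan f
    rw [← Subtype.range_coe (s := 𝒮), Submodule.mem_span_range_iff_exists_fun] at h
    obtain ⟨c, hc⟩ := h
    refine ⟨c, fun n => ?_⟩
    have := congrFun hc n
    rw [← this]
    simp [Finset.sum_apply]

end Fermat.Agent.S22
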