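-- Statement S23: `S₂(Γ₀(N))` has an integral structure.
import Fermat.Statements.S23
import Fermat.Agent.S23.Descent
import Fermat.Agent.S23.Stable

set_option autoImplicit false
open CuspForm

namespace Fermat.Agent.S23

theorem result (N : ℕ) [NeZero N] : CuspForm.HasIntegralStructure N 2 :=
  hasIntegralStructure_of_conj N 2 fun σ f => by
    obtain ⟨g, hg⟩ := exists_conj_cuspForm (σ : ℂ →+* ℂ) f
    refine ⟨g, fun n => ?_⟩
    unfold ModularFormClass.qCoeff
    rw [hg, PowerSeries.coeff_map]
    rfl

end Fermat.Agent.S23
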