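import Fermat.Statements.S24
import Fermat.Agent.S24.PlaceBasic
import Fermat.Agent.S24.NormProd
import Fermat.Agent.S24.Differential
import Fermat.Agent.S24.Degree
import Fermat.Agent.S24.Orbits
import Fermat.Agent.S24.EngineAlg
import Fermat.Agent.S24.Integral
import Fermat.Agent.S24.Local
import Fermat.Agent.S20
import Fermat.Agent.S20.CardQuo

set_option autoImplicit false
open ModularCurve

namespace Fermat.Agent.S24

open AlgebraicCurve IntermediateField KaehlerDifferential
open Fermat.Agent.S20 (Quo sl)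

theorem degree_FN (N : ℕ) [NeZero N] (ω : Ω[FN N⁄Kb]) (hω : ω ≠ 0) (Dv : Divisor Kb (FN N))
    (hD : ∀ v, Dv v = v.ordDifferential ω) :
    (Divisor.degree Dv : ℚ) = 2 * ModularCurve.genusFormula N - 2 := by
  classical
  obtain ⟨hfd, hle⟩ := finrank_FN_le N
  haveI := hfd
  obtain ⟨Linf, hinf⟩ := exists_localData_inf N
  obtain ⟨L0, h0⟩ := exists_localData_zero N
  obtain ⟨L1, h1⟩ := exists_localData_1728 N
  have hgen := fun (a : Kb) (ha : a ≠ 0 ∧ a ≠ 1728) => exists_localData_generic N a ha.1 ha.2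
  let Lfin : ∀ a : Kb, LocalData Kb (FN N) ℂ (Quo N) (jF N - algebraMap Kb (FN N) a) := fun a =>
    if ha0 : a = 0 then ha0 ▸ L0 else if ha1 : a = 1728 then ha1 ▸ L1 else
      (hgen a ⟨ha0, ha1⟩).choose
  have hL0 : Lfin 0 = L0 := by simp [Lfin]
  have hne : (1728 : Kb) ≠ 0 := by norm_num
  have hL1 : Lfin 1728 = L1 := by simp [Lfin, hne]
  have hLg : ∀ a, a ∉ ({0, 1728} : Finset Kb) → (Lfin a).ε = 1 := by
    intro a ha
    simp only [Finset.mem_insert, Finset.mem_singleton, not_or] at ha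
    simp only [Lfin, dif_neg ha.1, dif_neg ha.2]
    exact (hgen a ⟨ha.1, ha.2⟩).choose_spec
  have hcardQ : Fintype.card (Quo N) = ModularCurve.dedekindPsi N := by
    rw [← Nat.card_eq_fintype_card, Fermat.Agent.S20.card_quo]
  have hcard : Fintype.card (Quo N) = Module.finrank Kb⟮jF N⟯ (FN N) := by
    apply le_antisymm
    · have hfd' : FiniteDimensional Kb⟮(jF N)⁻¹⟯ (FN N) := by rw [adjoin_inv']; exact hfd
      have := card_le_finrank (jF N)⁻¹ Linf.σ Linf.σ_inj Linf.σ_y
      rwa [adjoin_inv'] at this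
    · rwa [Nat.card_eq_fintype_card] at hle
  have key := degree_canonical (jF N) (transcendental_jF N) hcard Lfin Linf {0, 1728} hLg ω hω Dv hD
  rw [Finset.sum_pair hne.symm, hL0, hL1, h0, h1, hinf, orbCard_T, hcardQ] at key
  have e2 := two_mul_orbCard_S N
  have e3 := three_mul_orbCard_ST N
  rw [key, ModularCurve.genusFormula]
  have e2' : (2 : ℚ) * (orbCard (MulAction.toPerm (sl ModularGroup.S) : Equiv.Perm (Quo N)) : ℚ) =
      ModularCurve.dedekindPsi N + ModularCurve.nuTwo N := by exact_mod_cast e2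
  have e3' : (3 : ℚ) * (orbCard (MulAction.toPerm (sl (ModularGroup.S * ModularGroup.T)) :
      Equiv.Perm (Quo N)) : ℚ) = ModularCurve.dedekindPsi N + 2 * ModularCurve.nuThree N := by
    exact_mod_cast e3
  push_cast
  linarith

theorem exists_omega (N : ℕ) [NeZero N] : ∃ ω : Ω[FN N⁄Kb], ω ≠ 0 := by
  obtain ⟨Linf, -⟩ := exists_localData_inf N
  obtain ⟨q⟩ : Nonempty (Quo N) := ⟨QuotientGroup.mk 1⟩
  refine ⟨D Kb (FN N) (jF N)⁻¹, D_ne_zero_of_embedding (Linf.σ q) _ ?_⟩
  rw [Linf.order_y]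
  exact_mod_cast Linf.e_pos.ne'

theorem result (N : ℕ) [NeZero N]
    [AlgebraicCurve.HasCanonicalDivisor (K := AlgebraicClosure ℚ) (F := ↥(ModularCurve.modularFunctionFieldBar N))] :
    (AlgebraicCurve.genus (AlgebraicClosure ℚ) ↥(ModularCurve.modularFunctionFieldBar N) : ℚ)
      = ModularCurve.genusFormula N := by
  have hex := exists_omega N
  have hdeg := degree_FN N hex.choose hex.choose_spec (canonicalDivisorOf hex.choose_spec)
    (fun v => canonicalDivisorOf_apply hex.choose_spec v)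
  have hS20 := Fermat.Agent.S20.result N
  rw [AlgebraicCurve.genus, dif_pos hex]
  rw [← hS20] at hdeg ⊢
  set G := Module.finrank ℂ (CuspForm (CongruenceSubgroup.Gamma0 N) 2) with hG
  have hd : Divisor.degree (canonicalDivisorOf hex.choose_spec) = 2 * (G : ℤ) - 2 := by
    exact_mod_cast hdeg
  rw [hd]
  have : (2 * (G : ℤ) - 2 + 2).toNat / 2 = G := by
    have : (2 * (G : ℤ) - 2 + 2) = ((2 * G : ℕ) : ℤ) := by push_cast; ring
    rw [this, Int.toNat_natCast]
    omega
  rw [this]

end Fermat.Agent.S24
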