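import Fermat.Statements.S31
import Fermat.Agent.S31.AsmC

set_option autoImplicit false
variable {p : ℕ} {N : ℕ} [NeZero N] {S : Finset ℕ}
  {𝒪 : Type} [CommRing 𝒪] [IsDomain 𝒪] [IsDiscreteValuationRing 𝒪]
  [IsAdicComplete (IsLocalRing.maximalIdeal 𝒪) 𝒪]
  {θ : CuspForm.heckeAlgebra N 2 (↑S : Set ℕ) →+* IsLocalRing.ResidueField 𝒪}
  {T : Type} [CommRing T] [IsLocalRing T] [IsNoetherianRing T]
  [IsAdicComplete (IsLocalRing.maximalIdeal T) T] [Algebra 𝒪 T] [IsLocalHom (algebraMap 𝒪 T)]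
  [Module.Finite 𝒪 T] [Module.Free 𝒪 T]
open CuspForm CuspForm.HeckeGaloisRepDatum

namespace Fermat.Agent.S31

theorem result (hp : p.Prime)
    (hp𝒪 : (p : 𝒪) ∈ IsLocalRing.maximalIdeal 𝒪) (hpS : p ∈ S)
    (hNS : ∀ q : ℕ, q.Prime → q ∣ N → q ∈ S)
    (H : CuspForm.HeckeGaloisRepDatum N (↑S : Set ℕ) 𝒪 θ T)
    (q : ℕ) (hq : q.Prime) (hqS : q ∉ S) :
    H.ρ.IsUnramifiedAt q := by
  intro P hP i0 hi0
  apply eq_one_of_trace H.ρ H.residual_absIrr i0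
  intro g
  have hpT : (p : T) ∈ IsLocalRing.maximalIdeal T := by
    have h1 := map_nonunit (algebraMap 𝒪 T) (p : 𝒪) hp𝒪
    rwa [map_natCast] at h1
  have h : ∀ n : ℕ, LinearMap.trace T H.ρ.V (H.ρ.ρ (g * i0)) -
      LinearMap.trace T H.ρ.V (H.ρ.ρ g) ∈ IsLocalRing.maximalIdeal T ^ n := fun n =>
    key p hp hpT hpS hNS H.ρ H.π H.charpoly_frob q hq hqS P hP i0 hi0 g n
  have h0 : LinearMap.trace T H.ρ.V (H.ρ.ρ (g * i0)) -
      LinearMap.trace T H.ρ.V (H.ρ.ρ g) ∈ (⨅ n : ℕ, IsLocalRing.maximalIdeal T ^ n) :=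
    (Ideal.mem_iInf).mpr h
  rw [Ideal.iInf_pow_eq_bot_of_isLocalRing _ (IsLocalRing.maximalIdeal.isMaximal T).ne_top] at h0
  exact sub_eq_zero.mp h0

end Fermat.Agent.S31
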