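import Fermat.Statements.S37
import Fermat.Agent.S37.AsmFin
import Fermat.Agent.S37.ESRed

set_option autoImplicit false
open ModularCurve

namespace Fermat.Agent.S37

theorem result (N p : ℕ) [NeZero N] (hcomm : ModularCurve.HeckeOperatorsCommuteBar N) : letI := ModularCurve.heckeModuleBar N; ∀ (_ : SMulCommClass (AlgebraicClosure ℚ ≃ₐ[ℚ] AlgebraicClosure ℚ) ModularCurve.HeckeAlg (ModularCurve.JZero N)), ModularCurve.SpecializationExists (K := ℚ) (L := AlgebraicClosure ℚ) N p (ModularCurve.JZero N) := by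
  intro hs ℓ hℓ hℓNp A hA
  have : NeZero ℓ := ⟨hℓ.ne_zero⟩
  have hℓN : ¬ ℓ ∣ N := fun h => hℓNp (Dvd.dvd.mul_right h p)
  exact final_of N p hcomm hs ℓ hℓ hℓNp A hA
    (fun M _ hNM _ G φ hφ h hh => (es_red G hℓ hA hNM hℓN φ hφ h hh).1)

end Fermat.Agent.S37
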