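import Fermat.Statements.S49
import Fermat.Agent.S49.Ideal

set_option autoImplicit false
open CuspForm EisensteinWeightOne CongruenceSubgroup ModularFormClass
open FLT FLT.AbstractIntegralStructure

namespace Fermat.Agent.S49

open Fermat.Agent.Lib.QCoeff

section aux

variable {N : ℕ} [NeZero N] {a : ℕ → ℤ} {f₀ : CuspForm (Gamma0 N) 2} {af : ℕ → ℤ}

theorem intCast_apply (c : ℤ) (f : CuspForm (Gamma0 N) 2) :
    ((c : heckeAlgebra N 2 ∅) : Module.End ℂ (CuspForm (Gamma0 N) 2)) f = (c : ℂ) • f := by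
  have h3 : ((c : heckeAlgebra N 2 ∅) : Module.End ℂ (CuspForm (Gamma0 N) 2)) = (c : _) := rfl
  rw [h3]
  have : (c : Module.End ℂ (CuspForm (Gamma0 N) 2)) = (c : ℂ) • 1 := by
    rw [Algebra.smul_def, mul_one]; simp
  rw [this, LinearMap.smul_apply, Module.End.one_apply]

theorem three_mem_eigIdeal (haf : ∀ n, (af n : ℂ) = qCoeff f₀ n) :
    (3 : heckeAlgebra N 2 ∅) ∈ eigIdeal f₀ := by
  have h3 : (3 : heckeAlgebra N 2 ∅) = ((3 : ℤ) : heckeAlgebra N 2 ∅) := by norm_num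
  rw [h3, mem_eigIdeal]
  intro n
  refine ⟨af n, ?_⟩
  rw [intCast_apply, qCoeff_smul, haf]
  norm_num

theorem int_mem_eigIdeal_iff (haf : ∀ n, (af n : ℂ) = qCoeff f₀ n)
    (h1 : (3 : ℤ) ∣ af 1 - 1) (c : ℤ) :
    (c : heckeAlgebra N 2 ∅) ∈ eigIdeal f₀ → (3 : ℤ) ∣ c := by
  intro h
  rw [mem_eigIdeal] at h
  obtain ⟨m, hm⟩ := h 1
  rw [intCast_apply, qCoeff_smul, ← haf] at hm
  have hm' : c * af 1 = 3 * m := by exact_mod_cast hm
  obtain ⟨x, hx⟩ := h1
  refine ⟨m - c * x, ?_⟩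
  linear_combination hm' - c * hx

theorem exists_int_sub_mem_eigIdeal
    (heig : FormalHecke.IsEigensystem
      (fun ℓ => if ℓ ∣ N then 0 else ((chiNegThree ℓ : ℤ) : ℤ)) a)
    (haf : ∀ n, (af n : ℂ) = qCoeff f₀ n) (hcong : ∀ n, (3 : ℤ) ∣ af n - a n)
    (t : heckeAlgebra N 2 ∅) : ∃ c : ℤ, t - (c : heckeAlgebra N 2 ∅) ∈ eigIdeal f₀ := by
  obtain ⟨c, hc⟩ := exists_int_sub_mem heig haf hcong t.2
  refine ⟨c, ?_⟩
  rw [mem_eigIdeal]
  have : ((t - (c : heckeAlgebra N 2 ∅) : heckeAlgebra N 2 ∅) :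
      Module.End ℂ (CuspForm (Gamma0 N) 2)) f₀ = t.1 f₀ - (c : ℂ) • f₀ := by
    have h3 : ((t - (c : heckeAlgebra N 2 ∅) : heckeAlgebra N 2 ∅) :
      Module.End ℂ (CuspForm (Gamma0 N) 2)) = t.1 - ((c : heckeAlgebra N 2 ∅) : _) := rfl
    rw [h3, LinearMap.sub_apply, intCast_apply]
  rw [this]
  exact hc

theorem eigIdeal_isMaximal
    (heig : FormalHecke.IsEigensystem
      (fun ℓ => if ℓ ∣ N then 0 else ((chiNegThree ℓ : ℤ) : ℤ)) a)
    (haf : ∀ n, (af n : ℂ) = qCoeff f₀ n) (hcong : ∀ n, (3 : ℤ) ∣ af n - a n) :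
    (eigIdeal f₀).IsMaximal := by
  have h1 : (3 : ℤ) ∣ af 1 - 1 := by
    have := hcong 1
    rwa [heig.1] at this
  rw [Ideal.isMaximal_iff]
  constructor
  · intro h
    have := int_mem_eigIdeal_iff haf h1 1 (by simpa using h)
    omega
  · intro J x hJ hx hxJ
    obtain ⟨c, hc⟩ := exists_int_sub_mem_eigIdeal heig haf hcong x
    have hcJ : (c : heckeAlgebra N 2 ∅) ∈ J := by
      have := J.sub_mem hxJ (hJ hc)
      simpa using this
    have h3J : (3 : heckeAlgebra N 2 ∅) ∈ J := hJ (three_mem_eigIdeal haf)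
    have hc3 : ¬ (3 : ℤ) ∣ c := by
      rintro ⟨d, rfl⟩
      apply hx
      have h5 : ((3 * d : ℤ) : heckeAlgebra N 2 ∅) ∈ eigIdeal f₀ := by
        push_cast
        exact Ideal.mul_mem_right _ _ (three_mem_eigIdeal haf)
      have := (eigIdeal f₀).add_mem hc h5
      simpa using this
    have hcop : IsCoprime c 3 := by
      rw [Int.isCoprime_iff_gcd_eq_one]
      have hp : Prime (3 : ℤ) := Int.prime_three
      have := (Int.isCoprime_iff_gcd_eq_one).mp ((Prime.coprime_iff_not_dvd hp).mpr hc3)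
      rwa [Int.gcd_comm] at this
    obtain ⟨u, v, huv⟩ := hcop
    have : (1 : heckeAlgebra N 2 ∅) = (u : heckeAlgebra N 2 ∅) * c + (v : heckeAlgebra N 2 ∅) * 3 := by
      have := congrArg (Int.cast : ℤ → heckeAlgebra N 2 ∅) huv
      push_cast at this
      exact this.symm
    rw [this]
    exact J.add_mem (J.mul_mem_left _ hcJ) (J.mul_mem_left _ h3J)

theorem relations_of_eigen (f : CuspForm (Gamma0 N) 2)
    (heig : ∀ t ∈ heckeAlgebra N 2 ∅, ∃ μ : ℂ, t f = μ • f) :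
    ∀ ℓ : ℕ, ℓ.Prime → ∃ c : ℂ, ∀ n : ℕ,
      qCoeff f (ℓ * n) + (if ℓ ∣ N then 0 else (ℓ : ℂ)) *
        (if ℓ ∣ n then qCoeff f (n / ℓ) else 0) = c * qCoeff f n := by
  intro ℓ hℓ
  by_cases hN : ℓ ∣ N
  · obtain ⟨μ, hμ⟩ := heig _ (heckeULin_mem_heckeAlgebra (k := 2) hℓ hN (Set.notMem_empty _))
    refine ⟨μ, fun n => ?_⟩
    have := qCoeff_heckeULin (k := 2) hN f n
    rw [hμ, qCoeff_smul] at this
    rw [if_pos hN, zero_mul, add_zero, this, mul_comm]
  · obtain ⟨μ, hμ⟩ := heig _ (heckeTLin_mem_heckeAlgebra (k := 2) hℓ hN (Set.notMem_empty _))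
    refine ⟨μ, fun n => ?_⟩
    have := qCoeff_heckeTLin (k := 2) hℓ hN f n
    rw [hμ, qCoeff_smul] at this
    rw [if_neg hN, this, mul_comm ℓ n]
    split_ifs <;> norm_num

theorem isNormalizedEigenform_of_eigen (g : CuspForm (Gamma0 N) 2) (h1 : qCoeff g 1 = 1)
    (heig : ∀ t ∈ heckeAlgebra N 2 ∅, ∃ μ : ℂ, t g = μ • g) : g.IsNormalizedEigenform := by
  have hsys : FormalHecke.IsEigensystem (fun ℓ => if ℓ ∣ N then 0 else (ℓ : ℂ))
      (fun n => qCoeff g n) := by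
    refine ⟨h1, fun ℓ hℓ n => ?_⟩
    obtain ⟨c, hc⟩ := relations_of_eigen g heig ℓ hℓ
    have hc1 := hc 1
    have hnd : ¬ ℓ ∣ 1 := by simpa using hℓ.one_lt.ne'
    simp only [if_neg hnd, mul_zero, add_zero, mul_one, h1] at hc1
    show qCoeff g (ℓ * n) + _ = qCoeff g ℓ * qCoeff g n
    rw [hc1]
    exact hc n
  have hrec := Fermat.Agent.Lib.FormalHecke.isRecursive hsys
  refine ⟨h1, hrec.2.1, fun p r hp hpN => ?_, fun p r hp hpN => ?_⟩
  · have := hrec.2.2 p r hp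
    simpa [if_neg hpN] using this
  · have := hrec.2.2 p r hp
    simpa [if_pos hpN] using this

end aux

theorem result
    {N : ℕ} [NeZero N] (h : CuspForm.HasIntegralBasis N) {a : ℕ → ℤ}
    (heig : FormalHecke.IsEigensystem
      (fun ℓ => if ℓ ∣ N then 0 else ((chiNegThree ℓ : ℤ) : ℤ)) a)
    (hreal : CuspForm.IsLatticeRealized N a) :
    ∃ (f : CuspForm (Gamma0 N) 2) (_ : f.IsNormalizedEigenform)
      (𝔪' : Ideal (integralClosure ℤ ℂ)), 𝔪'.IsMaximal ∧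
      ((3 : ℕ) : integralClosure ℤ ℂ) ∈ 𝔪' ∧
      ∀ (ℓ : ℕ) (_ : ℓ.Prime) (_ : ¬ ℓ ∣ N),
        ∃ c : integralClosure ℤ ℂ, (c : ℂ) = ModularFormClass.qCoeff f ℓ ∧
          c - (a ℓ : integralClosure ℤ ℂ) ∈ 𝔪' := by
  classical
  have hint := hasIntegralStructure h
  have := finiteDimensional hint
  have := moduleFinite hint ∅
  obtain ⟨f₀, -, af, haf, hcong0⟩ := hreal
  have hcong : ∀ n, (3 : ℤ) ∣ af n - a n := by
    intro n
    have := dvd_add (hcong0 n) (bridge_congr a n)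
    simpa using this
  have hmax := eigIdeal_isMaximal heig haf hcong
  -- the eigenvector
  obtain ⟨f, hf0, hfeig, hfann⟩ := Fermat.Agent.Lib.Eigen.exists_eigenvector
    (V := CuspForm (Gamma0 N) 2)
    (heckeAlgebra N 2 ∅ : Set (Module.End ℂ (CuspForm (Gamma0 N) 2)))
    {x | x f₀ ∈ threeLattice N}
    (one_mem _) (fun s hs t ht => mul_mem hs ht)
    (fun s hs t ht => by
      have := mul_comm (⟨s, hs⟩ : heckeAlgebra N 2 ∅) ⟨t, ht⟩
      exact congrArg Subtype.val this)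
    (fun h1 => hmax.ne_top ((Ideal.eq_top_iff_one _).mpr h1))
    (by simp)
    (fun s hs t ht hst => hmax.isPrime.mem_or_mem (x := ⟨s, hs⟩) (y := ⟨t, ht⟩) hst)
  have ha1 : qCoeff f 1 ≠ 0 := by
    intro h1
    apply hf0
    apply eq_zero_of_qCoeff
    exact Fermat.Agent.Lib.FormalHecke.eq_zero_of_relations
      (e := fun ℓ => if ℓ ∣ N then 0 else (ℓ : ℂ)) (a := fun n => qCoeff f n)
      (qCoeff_zero_idx f) h1 (relations_of_eigen f hfeig)
  obtain ⟨g, hg⟩ : ∃ g : CuspForm (Gamma0 N) 2, g = (qCoeff f 1)⁻¹ • f := ⟨_, rfl⟩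
  have hg1 : qCoeff g 1 = 1 := by rw [hg, qCoeff_smul, inv_mul_cancel₀ ha1]
  have hgeig : ∀ t ∈ heckeAlgebra N 2 ∅, ∃ μ : ℂ, t g = μ • g := by
    intro t ht
    obtain ⟨μ, hμ⟩ := hfeig t ht
    exact ⟨μ, by rw [hg, map_smul, hμ, smul_comm]⟩
  have hgann : ∀ t ∈ heckeAlgebra N 2 ∅, t g = 0 → t f₀ ∈ threeLattice N := by
    intro t ht htg
    apply hfann t ht
    rw [hg, map_smul] at htg
    exact (smul_eq_zero.mp htg).resolve_left (inv_ne_zero ha1)
  let lam : heckeAlgebra N 2 ∅ →+* ℂ :=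
    { toFun := fun t => qCoeff (t.1 g) 1
      map_one' := hg1
      map_mul' := fun s t => by
        show qCoeff ((s.1 * t.1) g) 1 = _
        obtain ⟨μ, hμ⟩ := hgeig t.1 t.2
        obtain ⟨ν, hν⟩ := hgeig s.1 s.2
        rw [Module.End.mul_apply, hμ, map_smul, hν, qCoeff_smul, qCoeff_smul, qCoeff_smul, hg1]
        ring
      map_zero' := by
        show qCoeff ((0 : Module.End ℂ (CuspForm (Gamma0 N) 2)) g) 1 = 0
        simpa using (coeffLin N 2 1).map_zero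
      map_add' := fun s t => by
        show qCoeff ((s.1 + t.1) g) 1 = _
        rw [LinearMap.add_apply, qCoeff_add] }
  have hlam : ∀ t : heckeAlgebra N 2 ∅, t.1 g = lam t • g := by
    intro t
    obtain ⟨μ, hμ⟩ := hgeig t.1 t.2
    show t.1 g = qCoeff (t.1 g) 1 • g
    rw [hμ, qCoeff_smul, hg1, mul_one]
  have hlamint : ∀ t, lam t ∈ integralClosure ℤ ℂ := by
    intro t
    have : IsIntegral ℤ t := Algebra.IsIntegral.isIntegral t
    exact this.map lam.toIntAlgHom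
  let lam' : heckeAlgebra N 2 ∅ →+* integralClosure ℤ ℂ := lam.codRestrict _ hlamint
  let _ : Algebra (heckeAlgebra N 2 ∅) (integralClosure ℤ ℂ) := lam'.toAlgebra
  have : IsScalarTower ℤ (heckeAlgebra N 2 ∅) (integralClosure ℤ ℂ) :=
    IsScalarTower.of_algebraMap_eq fun x => by simp
  have : Algebra.IsIntegral (heckeAlgebra N 2 ∅) (integralClosure ℤ ℂ) :=
    ⟨fun x => (Algebra.IsIntegral.isIntegral (R := ℤ) x).tower_top⟩
  obtain ⟨Q, hQmax, hQ⟩ := Ideal.exists_ideal_over_maximal_of_isIntegral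
    (S := integralClosure ℤ ℂ) (eigIdeal f₀) (by
      intro t ht
      rw [RingHom.mem_ker] at ht
      have h0 : lam t = 0 := congrArg Subtype.val ht
      rw [mem_eigIdeal]
      apply hgann t.1 t.2
      rw [hlam t, h0, zero_smul])
  have hmemQ : ∀ t ∈ eigIdeal f₀, lam' t ∈ Q := by
    intro t ht
    rw [← hQ] at ht
    exact ht
  refine ⟨g, isNormalizedEigenform_of_eigen g hg1 hgeig, Q, hQmax, ?_, ?_⟩
  · have := hmemQ _ (three_mem_eigIdeal haf)
    rw [map_ofNat] at this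
    exact_mod_cast this
  · intro ℓ hℓ hℓN
    refine ⟨lam' (heckeAlgebra.T hℓ hℓN (Set.notMem_empty _)), ?_, ?_⟩
    · show qCoeff (heckeTLin 2 hℓ hℓN g) 1 = _
      rw [qCoeff_heckeTLin, if_neg (by simpa using hℓ.one_lt.ne'), add_zero, one_mul]
    · have hmem : heckeAlgebra.T hℓ hℓN (Set.notMem_empty _) - (a ℓ : heckeAlgebra N 2 ∅)
          ∈ eigIdeal f₀ := by
        rw [mem_eigIdeal]
        have h3 : ((heckeAlgebra.T hℓ hℓN (Set.notMem_empty _) - (a ℓ : heckeAlgebra N 2 ∅) :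
            heckeAlgebra N 2 ∅) : Module.End ℂ (CuspForm (Gamma0 N) 2))
            = heckeTLin 2 hℓ hℓN - ((a ℓ : heckeAlgebra N 2 ∅) : _) := rfl
        rw [h3, LinearMap.sub_apply, intCast_apply]
        exact heckeT_sub_mem heig haf hcong hℓ hℓN
      have := hmemQ _ hmem
      simpa using this

end Fermat.Agent.S49
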