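-- S51: a semistable curve has irreducible mod 3 or mod 5 representation (explicit X0(15) argument).
import Fermat.Statements.S51
import Fermat.Agent.S51.Algebra
import Fermat.Agent.S51.Relations

set_option autoImplicit false
open WeierstrassCurve WeierstrassCurve.Affine WeierstrassCurve.Affine.Point
open CuspForm ModularFormClass UpperHalfPlane
open WeierstrassCurve

namespace Fermat.Agent.S51

theorem result (W : WeierstrassCurve ℤ) (hΔ : W.Δ ≠ 0) (hW : W.IsSemistableModel) : W.ModRepIsIrreducible 3 ∨ W.ModRepIsIrreducible 5 := by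
  by_contra hcon
  push Not at hcon
  obtain ⟨hn3, hn5⟩ := hcon
  unfold WeierstrassCurve.ModRepIsIrreducible at hn3 hn5
  set E : WeierstrassCurve ℚ := W.map (Int.castRingHom ℚ) with hE
  have hΔE : E.Δ ≠ 0 := by
    rw [hE, WeierstrassCurve.map_Δ]
    simpa using hΔ
  obtain ⟨P₃, x₀, hP3, h3, hx0⟩ := three_data E hΔE hn3
  obtain ⟨P₅, e₁, e₂, hP5, h5, he1, he2⟩ := five_data E hΔE hn5
  obtain ⟨r1, r2, r3, r4, r5⟩ := relations E P₃ P₅ x₀ e₁ e₂ hP3 h3 hx0 hP5 h5 he1 he2
  have hmain := algebra_main E.b₂ E.b₄ E.b₆ E.b₈ x₀ (e₁/2) (e₁^2/4 - e₂) E.b_relation r1 r2 r3 r4 r5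
    E.c₄ E.Δ rfl rfl hΔE
  have hc4 : E.c₄ = ((W.c₄ : ℤ) : ℚ) := by rw [hE, WeierstrassCurve.map_c₄]; rfl
  have hD : E.Δ = ((W.Δ : ℤ) : ℚ) := by rw [hE, WeierstrassCurve.map_Δ]; rfl
  rw [hc4, hD] at hmain
  refine not_semistable_five W.c₄ W.Δ (fun h => hW 5 (by norm_num) (by exact_mod_cast h)) ?_
  rcases hmain with h | h | h | h
  · left; exact_mod_cast h
  · right; left; exact_mod_cast h
  · right; right; left; exact_mod_cast h
  · right; right; right; exact_mod_cast h

end Fermat.Agent.S51
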