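import Fermat.Statements.S53
import Fermat.Agent.S53.ProRep
import Fermat.Agent.S53.SetupEx
import Fermat.Agent.S53.Tangent
import Fermat.Agent.S53.Univ

set_option autoImplicit false
set_option autoImplicit false
open GaloisRep

namespace Fermat.Agent.S53

theorem result
    (𝒪 : Type) [CommRing 𝒪] [IsDomain 𝒪] [IsDiscreteValuationRing 𝒪]
    [IsAdicComplete (IsLocalRing.maximalIdeal 𝒪) 𝒪] [Finite (IsLocalRing.ResidueField 𝒪)]
    (ρbar : ResidualGaloisRep (IsLocalRing.ResidueField 𝒪))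
    (𝒟 : ∀ ⦃A : Type⦄ [CommRing A] [IsLocalRing A] [Algebra 𝒪 A], GaloisRepAdic A → Prop)
    (habs : ρbar.IsAbsolutelyIrreducible)
    (h𝒟 : GaloisRep.IsDeformationCondition 𝒪 𝒟)
    (hbar : 𝒟 (GaloisRepAdic.ofResidualGaloisRep ρbar))
    (hfin : GaloisRep.TangentFinite 𝒪 ρbar 𝒟) :
    Nonempty (GaloisRep.DeformationRingData 𝒪 ρbar 𝒟) := by
  obtain ⟨bbar, S, hS⟩ := exists_setup 𝒪 ρbar habs
  have h0 := good_ker_rb h𝒟 ρbar bbar hS hbar
  obtain ⟨R, _, _, _, _, _, _, u, hres, hdense, hgood, hmin⟩ :=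
    exists_proRep 𝒪 Idx (ev S.rb) (Good S 𝒟) h0
      (fun K hK => ⟨hK.isThick.le, hK.isThick.pow, hK.isThick.fin⟩)
      (fun _ _ => good_inf h𝒟) (fun _ _ => good_mono h𝒟)
      (good_tangent h𝒟 ρbar bbar hS hfin h0)
  have hu : IsProRep S 𝒟 u := ⟨hdense, hgood, hmin⟩
  exact ⟨{
    R := R
    residue_surjective := hres
    absIrr := habs
    ρ := toRep hu.hom hu.isCont_hom
    isOfType := hu.type_hom h𝒟 hres
    residual_isEquiv := hu.residual_isEquiv ρbar bbar hS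
    universal := fun A _ _ _ _ _ _ hresA ρA hρA he =>
      hu.universal h𝒟 ρbar bbar hS A hresA ρA hρA he }⟩

end Fermat.Agent.S53
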