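import Fermat.Statements.S57
import Mathlib

set_option autoImplicit false
set_option linter.style.haveILetI false
open Algebra Algebra.PatchingLevel

namespace Fermat.Agent.S57

open CategoryTheory RingTheory.Sequence IsLocalRing
open scoped Pointwise

lemma hasProjectiveDimensionLT_of_isFiniteLength {P : Type} [CommRing P] [IsLocalRing P] (n : ℕ)
    (hk : HasProjectiveDimensionLT (ModuleCat.of P (P ⧸ maximalIdeal P)) n)
    (Q : Type) [AddCommGroup Q] [Module P Q] (hQ : IsFiniteLength P Q) :
    HasProjectiveDimensionLT (ModuleCat.of P Q) n := by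
  induction hQ with
  | @of_subsingleton M _ _ _ =>
    have : Limits.IsZero (ModuleCat.of P M) := ModuleCat.isZero_of_subsingleton _
    have h0 := this.hasProjectiveDimensionLT_zero
    exact hasProjectiveDimensionLT_of_ge _ 0 n (Nat.zero_le n)
  | @of_simple_quotient M _ _ N hs _ ih =>
    have hS : (ModuleCat.shortComplexOfCompEqZero N.subtype N.mkQ (by ext x; simp)).ShortExact := by
      refine ModuleCat.shortComplex_shortExact _ ?_ ?_ ?_
      · intro x
        simp only [ModuleCat.hom_ofHom, Submodule.mkQ_apply, Submodule.Quotient.mk_eq_zero,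
          Set.mem_range, Submodule.subtype_apply, Subtype.exists, exists_prop, exists_eq_right]
      · exact N.injective_subtype
      · exact N.mkQ_surjective
    refine hS.hasProjectiveDimensionLT_X₂ n ih ?_
    obtain ⟨I, hI, ⟨e⟩⟩ := isSimpleModule_iff_quot_maximal.mp hs
    have hI' : I = maximalIdeal P := IsLocalRing.eq_maximalIdeal hI
    subst hI'
    exact hasProjectiveDimensionLT_of_iso (e.symm.toModuleIso) n

lemma isFiniteLength_quot {S P : Type} [CommRing S] [CommRing P] [IsNoetherianRing P]
    [Algebra S P] {N : Type} [AddCommGroup N] [Module P N] [Module S N] [IsScalarTower S P N]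
    [Module.Finite S N] (I : Ideal S) (hmax : I.IsMaximal) (K : Submodule P N)
    (hK : ∀ s ∈ I, ∀ x : N, s • x ∈ K) :
    IsFiniteLength P (N ⧸ K) := by
  have hfinQ : Module.Finite S (N ⧸ K) :=
    Module.Finite.of_surjective (K.mkQ.restrictScalars S) K.mkQ_surjective
  have htors : Module.IsTorsionBySet S (N ⧸ K) I := by
    rintro x ⟨s, hs⟩
    obtain ⟨y, rfl⟩ := K.mkQ_surjective x
    show s • K.mkQ y = 0
    rw [← algebraMap_smul P s, ← map_smul, Submodule.mkQ_apply, Submodule.Quotient.mk_eq_zero,
      algebraMap_smul]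
    exact hK s hs y
  have hss : IsSemisimpleModule S (N ⧸ K) := by
    letI : Field (S ⧸ I) := Ideal.Quotient.field _
    letI := htors.module
    exact htors.isSemisimpleModule_iff.mp inferInstance
  have hartS : IsArtinian S (N ⧸ K) := inferInstance
  have hart : IsArtinian P (N ⧸ K) := isArtinian_of_tower S hartS
  have : Module.Finite P N := Module.Finite.of_restrictScalars_finite S P N
  exact isFiniteLength_iff_isNoetherian_isArtinian.mpr ⟨inferInstance, hart⟩

theorem free_of_regular {P : Type} [CommRing P] [IsLocalRing P] [IsNoetherianRing P]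
    {N : Type} [AddCommGroup N] [Module P N] [Nontrivial N] [Module.Finite P N]
    (rs : List P) (hreg : IsWeaklyRegular N rs) (hmem : ∀ r ∈ rs, r ∈ maximalIdeal P)
    (hfl : IsFiniteLength P (N ⧸ (Ideal.ofList rs • (⊤ : Submodule P N))))
    (hpd : HasProjectiveDimensionLT (ModuleCat.of P (P ⧸ maximalIdeal P)) (rs.length + 1)) :
    Module.Free P N := by
  have hpdeq := ModuleCat.projectiveDimension_quotient_eq_add_length_of_isWeaklyRegular
    (ModuleCat.of P N) rs hreg hmem
  have hQpd := hasProjectiveDimensionLT_of_isFiniteLength _ hpd _ hfl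
  have hle := (projectiveDimension_le_iff _ _).mpr hQpd
  rw [hpdeq] at hle
  have h0 : projectiveDimension (ModuleCat.of P N) ≤ (0 : ℕ) := by
    have : projectiveDimension (ModuleCat.of P N) + (rs.length : ℕ) ≤
        ((0 : ℕ) : WithBot ℕ∞) + (rs.length : ℕ) := by
      simpa using hle
    exact (ENat.WithBot.add_le_add_natCast_right_iff).mp this
  rw [projectiveDimension_le_iff] at h0
  have hproj : Projective (ModuleCat.of P N) :=
    (projective_iff_hasProjectiveDimensionLE_zero _).mpr h0
  have hproj' : Module.Projective P N := (IsProjective.iff_projective _).mpr hproj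
  exact Module.free_of_flat_of_isLocalRing

theorem free_of_patching {S P : Type} [CommRing S] [CommRing P] [IsLocalRing P]
    [IsNoetherianRing P]
    (φ : S →+* P) {N : Type} [AddCommGroup N] [Module P N] [Nontrivial N]
    (d : ℕ) (b : Fin d → N)
    (b_span : ∀ x : N, ∃ c : Fin d → S, x = ∑ i, φ (c i) • b i)
    (b_rel : ∀ c : Fin d → S, ∑ i, φ (c i) • b i = 0 → ∀ i, c i = 0)
    (rs₀ : List S) (hreg : IsWeaklyRegular S rs₀) (hmax : (Ideal.ofList rs₀).IsMaximal)
    (hpd : HasProjectiveDimensionLT (ModuleCat.of P (P ⧸ maximalIdeal P)) (rs₀.length + 1)) :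
    Module.Free P N := by
  letI : Algebra S P := φ.toAlgebra
  letI : Module S N := Module.compHom N φ
  haveI : IsScalarTower S P N := ⟨fun s p x => by
    show (φ s * p) • x = φ s • (p • x)
    rw [mul_smul]⟩
  let e : (Fin d → S) ≃ₗ[S] N := LinearEquiv.ofBijective (Fintype.linearCombination S b) (by
    constructor
    · rw [← LinearMap.ker_eq_bot, LinearMap.ker_eq_bot']
      intro c hc
      rw [Fintype.linearCombination_apply] at hc
      funext i
      exact b_rel c hc i
    · intro x
      obtain ⟨c, hc⟩ := b_span x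
      exact ⟨c, by rw [Fintype.linearCombination_apply]; exact hc.symm⟩)
  haveI : Module.Free S N := Module.Free.of_equiv e
  haveI : Module.Finite S N := Module.Finite.equiv e
  haveI : Module.Finite P N := Module.Finite.of_restrictScalars_finite S P N
  have hregN : IsWeaklyRegular N rs₀ :=
    ((TensorProduct.lid S N).isWeaklyRegular_congr rs₀).mp (hreg.isWeaklyRegular_rTensor (M₂ := N))
  have hregN' : IsWeaklyRegular N (rs₀.map (algebraMap S P)) :=
    (isWeaklyRegular_map_algebraMap_iff (S := P) (M := N) rs₀).mpr hregN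
  have hmem : ∀ r ∈ rs₀.map (algebraMap S P), r ∈ maximalIdeal P := by
    intro r hr
    obtain ⟨s, hs, rfl⟩ := List.mem_map.mp hr
    rw [mem_maximalIdeal, mem_nonunits_iff]
    intro hu
    obtain ⟨u, hu⟩ := hu.exists_left_inv
    apply hmax.ne_top
    rw [Ideal.eq_top_iff_one]
    obtain ⟨x, hx⟩ := exists_ne (0 : N)
    have hx' : e.symm x ≠ 0 := by simpa using hx
    obtain ⟨i₀, -⟩ := Function.ne_iff.mp hx'
    have h1 : e (s • e.symm (u • e (Pi.single i₀ 1))) = e (Pi.single i₀ 1) := by
      rw [map_smul, LinearEquiv.apply_symm_apply, ← algebraMap_smul P s, smul_smul, mul_comm, hu,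
        one_smul]
    have h2 := congrFun (e.injective h1) i₀
    rw [Pi.smul_apply, Pi.single_eq_same, smul_eq_mul] at h2
    rw [← h2]
    exact Ideal.mul_mem_right _ _ (Ideal.subset_span hs)
  refine free_of_regular (rs₀.map (algebraMap S P)) hregN' hmem ?_ (by simpa using hpd)
  refine isFiniteLength_quot (Ideal.ofList rs₀) hmax _ fun s hs x => ?_
  rw [← algebraMap_smul P s]
  refine Submodule.smul_mem_smul ?_ Submodule.mem_top
  rw [← Ideal.map_ofList]
  exact Ideal.mem_map_of_mem _ hs

def HasRegMax (A : Type) [CommRing A] : Prop :=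
  ∃ rs : List A, IsWeaklyRegular A rs ∧ (Ideal.ofList rs).IsMaximal

lemma HasRegMax.of_dvr (𝒪 : Type) [CommRing 𝒪] [IsDomain 𝒪] [IsDiscreteValuationRing 𝒪] :
    HasRegMax 𝒪 := by
  obtain ⟨ϖ, hϖ⟩ := IsDiscreteValuationRing.exists_irreducible 𝒪
  refine ⟨[ϖ], ?_, ?_⟩
  · rw [isWeaklyRegular_singleton_iff]
    exact IsSMulRegular.of_ne_zero hϖ.ne_zero
  · rw [Ideal.ofList_singleton, ← hϖ.maximalIdeal_eq]
    infer_instance

lemma HasRegMax.of_ringEquiv {A B : Type} [CommRing A] [CommRing B] (e : A ≃+* B)
    (h : HasRegMax A) : HasRegMax B := by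
  obtain ⟨rs, h1, h2⟩ := h
  refine ⟨rs.map e, ?_, ?_⟩
  · refine (AddEquiv.isWeaklyRegular_congr (e := e.toAddEquiv) (as := rs) (bs := rs.map e) ?_).mp h1
    exact List.forall₂_map_right_iff.mpr (List.forall₂_same.mpr fun r _ x => by simp)
  · have h3 : Ideal.ofList (rs.map e) = Ideal.map (e : A →+* B) (Ideal.ofList rs) := by
      rw [Ideal.map_ofList]; rfl
    rw [h3]
    exact h2.map_bijective (e : A →+* B) e.bijective

lemma HasRegMax.powerSeries {A : Type} [CommRing A] (h : HasRegMax A) :
    HasRegMax (PowerSeries A) := by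
  obtain ⟨rs, h1, h2⟩ := h
  refine ⟨PowerSeries.X :: rs.map (algebraMap A (PowerSeries A)), ?_, ?_⟩
  · rw [isWeaklyRegular_cons_iff]
    refine ⟨?_, ?_⟩
    · intro f g hfg
      exact PowerSeries.X_mul_cancel hfg
    · letI : Module (PowerSeries A) A := Module.compHom A (PowerSeries.constantCoeff (R := A))
      have hsm : ∀ (f : PowerSeries A) (a : A), f • a = PowerSeries.constantCoeff f * a :=
        fun _ _ => rfl
      haveI : IsScalarTower A (PowerSeries A) A := ⟨fun a f x => by
        rw [hsm, hsm, smul_eq_mul, Algebra.smul_def, map_mul, mul_assoc]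
        simp⟩
      let cc : PowerSeries A →ₗ[PowerSeries A] A :=
        { toFun := PowerSeries.constantCoeff (R := A)
          map_add' := map_add _
          map_smul' := fun f g => by
            rw [smul_eq_mul, map_mul, RingHom.id_apply, hsm] }
      have hker : LinearMap.ker cc =
          (PowerSeries.X : PowerSeries A) • (⊤ : Submodule (PowerSeries A) (PowerSeries A)) := by
        ext f
        rw [LinearMap.mem_ker, Submodule.mem_smul_pointwise_iff_exists]
        show PowerSeries.constantCoeff f = 0 ↔ _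
        rw [← PowerSeries.X_dvd_iff]
        constructor
        · rintro ⟨g, rfl⟩
          exact ⟨g, Submodule.mem_top, rfl⟩
        · rintro ⟨g, -, rfl⟩
          exact ⟨g, rfl⟩
      let e : QuotSMulTop (PowerSeries.X : PowerSeries A) (PowerSeries A) ≃ₗ[PowerSeries A] A :=
        (Submodule.quotEquivOfEq _ _ hker.symm).trans
          (cc.quotKerEquivOfSurjective PowerSeries.constantCoeff_surj)
      rw [e.isWeaklyRegular_congr, isWeaklyRegular_map_algebraMap_iff]
      exact h1
  · have h3 : Ideal.ofList (PowerSeries.X :: rs.map (algebraMap A (PowerSeries A))) =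
        Ideal.comap (PowerSeries.constantCoeff (R := A)) (Ideal.ofList rs) := by
      rw [Ideal.ofList_cons, ← Ideal.map_ofList]
      apply le_antisymm
      · rw [sup_le_iff, Ideal.span_singleton_le_iff_mem, Ideal.map_le_iff_le_comap]
        refine ⟨by simp, fun a ha => ?_⟩
        simpa using ha
      · intro f hf
        rw [Ideal.mem_comap] at hf
        rw [f.eq_X_mul_shift_add_const]
        refine Ideal.add_mem _ (Ideal.mem_sup_left ?_) (Ideal.mem_sup_right ?_)
        · exact Ideal.mul_mem_right _ _ (Ideal.mem_span_singleton_self _)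
        · exact Ideal.mem_map_of_mem _ hf
    rw [h3]
    exact Ideal.comap_isMaximal_of_surjective _ PowerSeries.constantCoeff_surj

lemma HasRegMax.mvPowerSeries (𝒪 : Type) [CommRing 𝒪] (h : HasRegMax 𝒪) (r : ℕ) :
    HasRegMax (MvPowerSeries (Fin r) 𝒪) := by
  induction r with
  | zero => exact h.of_ringEquiv (MvPowerSeries.isEmptyEquiv (Fin 0) 𝒪).toRingEquiv.symm
  | succ n ih => exact ih.powerSeries.of_ringEquiv (MvPowerSeries.finSuccEquiv 𝒪 n).toRingEquiv.symm

lemma hasProjectiveDimensionLT_residue {P : Type} [CommRing P] [IsLocalRing P] [IsNoetherianRing P]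
    (rs : List P) (hreg : IsWeaklyRegular P rs) (hmax : (Ideal.ofList rs).IsMaximal) :
    HasProjectiveDimensionLT (ModuleCat.of P (P ⧸ maximalIdeal P)) (rs.length + 1) := by
  have hm : Ideal.ofList rs = maximalIdeal P := IsLocalRing.eq_maximalIdeal hmax
  have hreg' : IsRegular P rs := by
    refine ⟨hreg, ?_⟩
    rw [smul_eq_mul, Ideal.mul_top]
    exact hmax.ne_top.symm
  have h := ModuleCat.projectiveDimension_quotient_eq_length.{0} rs hreg'
  have h2 : projectiveDimension (ModuleCat.of P (P ⧸ maximalIdeal P)) = rs.length := by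
    rw [← h, hm]
    exact projectiveDimension_eq_of_iso (Shrink.linearEquiv P (P ⧸ maximalIdeal P)).symm.toModuleIso
  exact (projectiveDimension_le_iff _ _).mp h2.le

theorem descent {P R : Type} [CommRing P] [CommRing R] (ψ : P →+* R) (hψ : Function.Surjective ψ)
    {N M : Type} [AddCommGroup N] [Module P N] [AddCommGroup M] [Module R M] [Nontrivial M]
    [Module.Free P N] [Module.Finite P N]
    (I : Ideal P) (hI : I ≤ RingHom.ker ψ)
    (π : N →+ M) (π_smul : ∀ (f : P) (x : N), π (f • x) = ψ f • π x)
    (π_surj : Function.Surjective π)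
    (ker_π : ∀ x : N, π x = 0 ↔ x ∈ I • (⊤ : Submodule P N)) :
    Module.Free R M ∧ Module.annihilator R M = ⊥ ∧ RingHom.ker ψ = I := by
  let B := Module.Free.chooseBasis P N
  have hcoord : ∀ x ∈ I • (⊤ : Submodule P N), ∀ i, B.repr x i ∈ I := by
    intro x hx i
    refine Submodule.smul_induction_on hx ?_ ?_
    · intro a ha y _
      rw [map_smul, Finsupp.smul_apply, smul_eq_mul]
      exact Ideal.mul_mem_right _ _ ha
    · intro y z hy hz
      rw [map_add, Finsupp.add_apply]
      exact Ideal.add_mem _ hy hz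
  have hli : LinearIndependent R (fun i => π (B i)) := by
    rw [Fintype.linearIndependent_iff]
    intro g hg i
    choose f hf using fun i => hψ (g i)
    have h1 : π (∑ i, f i • B i) = 0 := by
      rw [map_sum, ← hg]
      exact Finset.sum_congr rfl fun i _ => by rw [π_smul, hf]
    have h2 := hcoord _ ((ker_π _).mp h1) i
    rw [B.repr_sum_self] at h2
    rw [← hf i]
    exact hI h2
  have hsp : ⊤ ≤ Submodule.span R (Set.range fun i => π (B i)) := by
    intro m _
    obtain ⟨x, rfl⟩ := π_surj m
    rw [← B.sum_repr x, map_sum]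
    refine Submodule.sum_mem _ fun i _ => ?_
    rw [π_smul]
    exact Submodule.smul_mem _ _ (Submodule.subset_span ⟨i, rfl⟩)
  have hfree : Module.Free R M := Module.Free.of_basis (Module.Basis.mk hli hsp)
  refine ⟨hfree, Module.annihilator_eq_bot.mpr inferInstance, le_antisymm ?_ hI⟩
  intro f hf
  have hN : Nontrivial N := by
    obtain ⟨m, hm⟩ := exists_ne (0 : M)
    obtain ⟨x, rfl⟩ := π_surj m
    exact ⟨x, 0, fun h => hm (by rw [h, map_zero])⟩
  obtain ⟨i₀⟩ : Nonempty (Module.Free.ChooseBasisIndex P N) := B.index_nonempty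
  have h1 : π (f • B i₀) = 0 := by rw [π_smul, (RingHom.mem_ker).mp hf, zero_smul]
  have h2 := hcoord _ ((ker_π _).mp h1) i₀
  simpa using h2

theorem result
    {𝒪 : Type} [CommRing 𝒪] [IsDomain 𝒪] [IsDiscreteValuationRing 𝒪]
    {r : ℕ} {R : Type} [CommRing R] [Algebra 𝒪 R]
    {M : Type} [AddCommGroup M] [Module R M] [Nontrivial M]
    (L : Algebra.PatchingLevel 𝒪 r R M ⊥) :
    Module.Free R M ∧ Module.annihilator R M = ⊥ ∧
      RingHom.ker L.ψ = Ideal.span (Set.range fun i : Fin r => L.φ (MvPowerSeries.X i)) := by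
  obtain ⟨rs₀, hreg, hmax⟩ := HasRegMax.mvPowerSeries 𝒪 (HasRegMax.of_dvr 𝒪) r
  have hN : Nontrivial L.N := by
    obtain ⟨m, hm⟩ := exists_ne (0 : M)
    obtain ⟨x, rfl⟩ := L.π_surjective m
    exact ⟨x, 0, fun h => hm (by rw [h, map_zero])⟩
  have hfree : Module.Free (MvPowerSeries (Fin r) 𝒪) L.N :=
    free_of_patching (L.φ : MvPowerSeries (Fin r) 𝒪 →+* MvPowerSeries (Fin r) 𝒪) L.d L.b L.b_span
      (fun c hc i => by simpa using (L.b_rel c).mp hc i) rs₀ hreg hmax
      (hasProjectiveDimensionLT_residue rs₀ hreg hmax)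
  have hfin : Module.Finite (MvPowerSeries (Fin r) 𝒪) L.N := by
    refine ⟨⟨(Set.finite_range L.b).toFinset, ?_⟩⟩
    rw [_root_.eq_top_iff]
    intro x _
    obtain ⟨c, rfl⟩ := L.b_span x
    refine Submodule.sum_mem _ fun i _ => Submodule.smul_mem _ _ (Submodule.subset_span ?_)
    simp
  exact descent (L.ψ : MvPowerSeries (Fin r) 𝒪 →+* R) L.ψ_surjective _
    (by
      rw [Ideal.span_le]
      rintro _ ⟨i, rfl⟩
      exact L.ψ_φ_X i) L.π L.π_smul L.π_surjective L.ker_π

end Fermat.Agent.S57
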